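import Mathlib

set_option autoImplicit false
set_option linter.style.haveILetI false

noncomputable section

open MvPolynomial

namespace Fermat.Agent.S26.Curves.H1185

section chain

variable {K S M : Type*} [CommRing K] [CommRing S] [Algebra K S] [AddCommGroup M] [Module S M]
  [Module K M]

/-- Chain rule for a derivation applied to a polynomial expression. -/
theorem derivation_aeval {κ : Type*} [Fintype κ] (d : Derivation K S M) (x : κ → S)
    (q : MvPolynomial κ K) :
    d (aeval x q) = ∑ k, aeval x (pderiv k q) • d (x k) := by
  classical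
  induction q using MvPolynomial.induction_on with
  | C a => simp
  | add p q hp hq => simp [hp, hq, add_smul, Finset.sum_add_distrib]
  | mul_X p i hp =>
    simp only [map_mul, aeval_X, Derivation.leibniz, hp, pderiv_X, smul_eq_mul, map_add,
      add_smul, Finset.sum_add_distrib, mul_smul, ← Finset.smul_sum]
    congr 1
    simp [Pi.single_apply, Finset.sum_ite_eq, ite_smul]

end chain

section degree

variable {K : Type*} [CommRing K] {κ : Type*}

theorem totalDegree_pderiv_lt {F : MvPolynomial κ K} {k : κ} (h : pderiv k F ≠ 0) :
    (pderiv k F).totalDegree < F.totalDegree := by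
  classical
  have key : ∀ m ∈ (pderiv k F).support, (m.sum fun _ e => e) + 1 ≤ F.totalDegree := by
    intro m hm
    rw [mem_support_iff, coeff_pderiv] at hm
    have hm' : m + Finsupp.single k 1 ∈ F.support := by
      rw [mem_support_iff]
      intro h0
      exact hm (by rw [h0, zero_mul])
    have := le_totalDegree hm'
    rwa [Finsupp.sum_add_index' (fun _ => rfl) (fun _ _ _ => rfl),
      Finsupp.sum_single_index rfl] at this
  obtain ⟨m, hm⟩ := (support_nonempty.mpr h)
  have hpos : 0 < F.totalDegree := lt_of_lt_of_le (Nat.succ_pos _) (key m hm)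
  rw [totalDegree, Finset.sup_lt_iff hpos]
  intro m hm
  exact key m hm

end degree

section indep

variable {K L : Type*} [Field K] [PerfectField K] [Field L] [Algebra K L] {κ : Type*} [Fintype κ]

/-- Over a perfect field, elements of a field extension whose differentials are linearly
independent are algebraically independent. -/
theorem algebraicIndependent_of_linearIndependent_D (y : κ → L)
    (h : LinearIndependent L (fun k => KaehlerDifferential.D K L (y k))) :
    AlgebraicIndependent K y := by
  classical
  by_contra hy
  set S := {F : MvPolynomial κ K | F ≠ 0 ∧ aeval y F = 0} with hS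
  have hne : S.Nonempty := by
    obtain ⟨x, hx1, hx2⟩ : ∃ x : MvPolynomial κ K, ¬x = 0 ∧ (aeval y) x = 0 := by
      simpa [algebraicIndependent_iff, and_comm] using hy
    exact ⟨x, hx1, hx2⟩
  obtain ⟨F, ⟨hF0, hFa⟩, hFmin⟩ : ∃ F ∈ S, ∀ G : MvPolynomial κ K, G ≠ 0 → aeval y G = 0 →
      totalDegree F ≤ totalDegree G :=
    ⟨totalDegree.argminOn S hne, totalDegree.argminOn_mem ..,
      fun _ h₁ h₂ ↦ totalDegree.argminOn_le S ⟨h₁, h₂⟩⟩
  have hd : ∀ k, aeval y (pderiv k F) = 0 := by
    have h0 : KaehlerDifferential.D K L (aeval y F) = 0 := by rw [hFa, map_zero]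
    rw [derivation_aeval] at h0
    exact fun k => Fintype.linearIndependent_iff.mp h _ h0 k
  have hp0 : ∀ k, pderiv k F = 0 := by
    intro k
    by_contra hk
    exact absurd (hFmin _ hk (hd k)) (not_le.mpr (totalDegree_pderiv_lt hk))
  have hcoef : ∀ σ ∈ F.support, ∀ k, ((σ k : ℕ) : K) = 0 := by
    intro σ hσ k
    by_cases hk : σ k = 0
    · simp [hk]
    · have := congrArg (coeff (σ - Finsupp.single k 1)) (hp0 k)
      rw [coeff_pderiv, coeff_zero] at this
      have e : σ - Finsupp.single k 1 + Finsupp.single k 1 = σ := by
        ext j
        by_cases hj : j = k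
        · subst hj
          simp only [Finsupp.coe_add, Finsupp.coe_tsub, Pi.add_apply, Pi.sub_apply,
            Finsupp.single_eq_same]
          omega
        · simp [Finsupp.single_eq_of_ne hj]
      rw [e] at this
      have hc : coeff σ F ≠ 0 := mem_support_iff.mp hσ
      have h2 := (mul_eq_zero.mp this).resolve_left hc
      have e2 : ((σ - Finsupp.single k 1 : κ →₀ ℕ) k) + 1 = σ k := by
        simp only [Finsupp.coe_tsub, Pi.sub_apply, Finsupp.single_eq_same]
        omega
      rw [← e2]
      exact_mod_cast h2
  obtain _ | ⟨p, hp, hpk⟩ := CharP.exists' K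
  · have hsupp : ∀ σ ∈ F.support, σ = 0 := by
      intro σ hσ
      ext k
      simpa using hcoef σ hσ k
    have hFC : F = C (coeff 0 F) := by
      ext m
      rw [coeff_C]
      split_ifs with hm
      · rw [hm]
      · by_contra hne
        exact hm (hsupp m (mem_support_iff.mpr hne)).symm
    rw [hFC, aeval_C] at hFa
    have hc0 : coeff 0 F = 0 := by simpa using hFa
    exact hF0 (by rw [hFC, hc0, map_zero])
  · have : ExpChar K p := .prime hp.out
    have : CharP L p := .of_ringHom_of_ne_zero (algebraMap K L) p hp.out.ne_zero
    have H : ∀ s : Finset L, LinearIndepOn K _root_.id (s : Set L) →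
        LinearIndepOn K (· ^ p) (s : Set L) := by
      intro s hs
      apply hs.map_of_injective_injective (frobeniusEquiv K p).symm
        (frobenius L p).toAddMonoidHom
      · intro r hr
        simpa using hr
      · intro m hm
        have hm' : m ^ p = 0 := hm
        exact pow_eq_zero_iff hp.out.ne_zero |>.mp hm'
      · intro r m
        show ((frobeniusEquiv K p).symm r • m) ^ p = r • m ^ p
        rw [Algebra.smul_def, mul_pow, ← map_pow, frobeniusEquiv_symm_pow_p, Algebra.smul_def]
    obtain ⟨i, σ, hσ, hi⟩ := MvPolynomial.exists_mem_support_not_dvd_of_forall_totalDegree_le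
      p hp.out H hFmin hF0 hFa
    exact hi ((CharP.cast_eq_zero_iff K p _).mp (hcoef σ hσ i))

end indep

section alg

variable {K L : Type*} [Field K] [Field L] [Algebra K L] [Algebra.EssFiniteType K L]
  {κ : Type*}

open KaehlerDifferential in
/-- If the differentials of `y` span `Ω[L⁄K]`, then `L` is (separable) algebraic over `K(y)`. -/
theorem isAlgebraic_adjoin_of_span_D (y : κ → L)
    (h : Submodule.span L (Set.range fun k => KaehlerDifferential.D K L (y k)) = ⊤) :
    Algebra.IsAlgebraic (IntermediateField.adjoin K (Set.range y)) L := by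
  set E := IntermediateField.adjoin K (Set.range y) with hE
  haveI : Algebra.EssFiniteType E L := Algebra.EssFiniteType.of_comp K E L
  have hmap : ∀ ω : Ω[L⁄K], KaehlerDifferential.map K E L L ω = 0 := by
    intro ω
    have hω : ω ∈ Submodule.span L (Set.range fun k => KaehlerDifferential.D K L (y k)) := by
      rw [h]; trivial
    induction hω using Submodule.span_induction with
    | mem x hx =>
      obtain ⟨k, rfl⟩ := hx
      rw [KaehlerDifferential.map_D]
      have hk : y k ∈ E := IntermediateField.subset_adjoin _ _ ⟨k, rfl⟩
      have e : algebraMap L L (y k) = algebraMap E L ⟨y k, hk⟩ := rfl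
      rw [e, Derivation.map_algebraMap]
    | zero => simp
    | add a b _ _ ha hb => rw [map_add, ha, hb, add_zero]
    | smul c a _ ha => rw [map_smul, ha, smul_zero]
  haveI : Algebra.FormallyUnramified E L := by
    constructor
    constructor
    intro a b
    obtain ⟨a', rfl⟩ := KaehlerDifferential.map_surjective K E L a
    obtain ⟨b', rfl⟩ := KaehlerDifferential.map_surjective K E L b
    rw [hmap, hmap]
  haveI : Algebra.IsSeparable E L := Algebra.FormallyUnramified.isSeparable E L
  infer_instance

end alg

section trdeg

variable {K L : Type*} [Field K] [PerfectField K] [Field L] [Algebra K L]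
  [Algebra.EssFiniteType K L] {κ : Type*} [Fintype κ]

/-- Over a perfect field, if `Ω[L⁄K]` has the basis `d y_k`, then `y` is a transcendence basis. -/
theorem isTranscendenceBasis_of_basis_D (y : κ → L) (b : Module.Basis κ L (Ω[L⁄K]))
    (hb : ∀ k, b k = KaehlerDifferential.D K L (y k)) : IsTranscendenceBasis K y := by
  have hfun : (fun k => KaehlerDifferential.D K L (y k)) = b := by
    funext k; exact (hb k).symm
  have hli : LinearIndependent L (fun k => KaehlerDifferential.D K L (y k)) := by
    rw [hfun]; exact b.linearIndependent
  have hsp : Submodule.span L (Set.range fun k => KaehlerDifferential.D K L (y k)) = ⊤ := by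
    rw [hfun]; exact b.span_eq
  have hind := algebraicIndependent_of_linearIndependent_D y hli
  have halg := isAlgebraic_adjoin_of_span_D y hsp
  rw [hind.isTranscendenceBasis_iff_isAlgebraic]
  exact IntermediateField.isAlgebraic_adjoin_iff_top.mp halg

/-- Over a perfect field, if `Ω[L⁄K]` has a basis of differentials indexed by a finite type `κ`,
then the transcendence degree of `L` over `K` is the cardinality of `κ`. -/
theorem trdeg_eq_card_of_basis_D (y : κ → L) (b : Module.Basis κ L (Ω[L⁄K]))
    (hb : ∀ k, b k = KaehlerDifferential.D K L (y k)) :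
    Algebra.trdeg K L = Fintype.card κ := by
  have h := (isTranscendenceBasis_of_basis_D y b hb).lift_cardinalMk_eq_trdeg
  rw [Cardinal.mk_fintype, Cardinal.lift_natCast] at h
  exact (Cardinal.lift_eq_nat_iff.mp h.symm)

end trdeg

section smooth

variable {K S L : Type*} [Field K] [PerfectField K] [CommRing S] [IsDomain S] [Algebra K S]
  [Field L] [Algebra S L] [Algebra K L] [IsScalarTower K S L] [IsFractionRing S L]

attribute [local instance] Fintype.ofFinite in
/-- The fraction field of a standard smooth domain of relative dimension `n` over a perfect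
field has transcendence degree `n`. -/
theorem trdeg_of_isStandardSmoothOfRelativeDimension (n : ℕ)
    [Algebra.IsStandardSmoothOfRelativeDimension n K S] : Algebra.trdeg K L = n := by
  obtain ⟨ι, σ, _, _, P, hP⟩ := Algebra.IsStandardSmoothOfRelativeDimension.out (n := n)
    (R := K) (S := S)
  let bS := P.basisKaehler
  haveI : Algebra.IsStandardSmooth K S :=
    Algebra.IsStandardSmoothOfRelativeDimension.isStandardSmooth n
  haveI : Algebra.EssFiniteType S L := Algebra.EssFiniteType.of_isLocalization L (nonZeroDivisors S)
  haveI : Algebra.EssFiniteType K L := Algebra.EssFiniteType.comp K S L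
  let bL := bS.ofIsLocalizedModule L (nonZeroDivisors S) (KaehlerDifferential.map K K S L)
  have hbL : ∀ k, bL k = KaehlerDifferential.D K L (algebraMap S L (P.val k)) := by
    intro k
    rw [Module.Basis.ofIsLocalizedModule_apply, Algebra.SubmersivePresentation.basisKaehler_apply,
      KaehlerDifferential.map_D]
  rw [trdeg_eq_card_of_basis_D
    (fun k : ((Set.range P.map)ᶜ : Set ι) => algebraMap S L (P.val k)) bL hbL]
  have h1 := P.rank_kaehlerDifferential
  rw [rank_eq_card_basis bS, hP] at h1
  exact_mod_cast h1

end smooth

section geom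

open AlgebraicGeometry CategoryTheory TopologicalSpace

universe u

variable {K : Type u} [Field K] {A : Scheme.{u}} (f : A ⟶ Spec (CommRingCat.of K))

theorem le_preimage_top (V : A.Opens) : V ≤ f ⁻¹ᵁ ⊤ := fun _ _ => trivial

/-- The structure map `K → Γ(A, V)` of a `K`-scheme. -/
def toSection (V : A.Opens) : K →+* Γ(A, V) :=
  (f.appLE ⊤ V (le_preimage_top f V)).hom.comp (Scheme.ΓSpecIso (CommRingCat.of K)).inv.hom

/-- The structure map `K → K(A)` of an integral `K`-scheme. -/
def toFunctionField [IsIntegral A] : K →+* A.functionField :=
  (A.presheaf.germ ⊤ (genericPoint A) trivial).hom.comp (toSection f ⊤)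

theorem toFunctionField_eq [IsIntegral A] (V : A.Opens) [Nonempty V] :
    toFunctionField f = (A.germToFunctionField V).hom.comp (toSection f V) := by
  have hV : genericPoint A ∈ V :=
    ((genericPoint_spec A).mem_open_set_iff V.isOpen).mpr (by simpa using ‹Nonempty V›)
  have h1 : f.appLE ⊤ V (le_preimage_top f V) =
      f.appLE ⊤ ⊤ (le_preimage_top f ⊤) ≫ A.presheaf.map (homOfLE (le_top : V ≤ ⊤)).op :=
    (Scheme.Hom.appLE_map f _ _).symm
  have h2 : A.presheaf.map (homOfLE (le_top : V ≤ ⊤)).op ≫ A.presheaf.germ V (genericPoint A) hV =
      A.presheaf.germ ⊤ (genericPoint A) trivial :=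
    A.presheaf.germ_res (homOfLE (le_top : V ≤ ⊤)) (genericPoint A) hV
  unfold toFunctionField toSection Scheme.germToFunctionField
  rw [h1, ← h2]
  rfl

/-- Around every point of a `K`-scheme that is smooth of relative dimension `g` there is an affine
open whose coordinate ring is standard smooth of relative dimension `g` over `K`. -/
theorem exists_toSection_isStandardSmooth (g : ℕ) [SmoothOfRelativeDimension g f] (x : A) :
    ∃ V : A.Opens, IsAffineOpen V ∧ x ∈ V ∧
      (toSection f V).IsStandardSmoothOfRelativeDimension g := by
  obtain ⟨U, hU, V, hV, hx, e, hf⟩ :=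
    SmoothOfRelativeDimension.exists_isStandardSmoothOfRelativeDimension (n := g) (f := f) x
  have hUtop : U = ⊤ := by
    ext y
    have hy : y = f x := Subsingleton.elim (α := PrimeSpectrum K) _ _
    simp only [Opens.coe_top, Set.mem_univ, iff_true]
    rw [hy]
    exact e hx
  subst hUtop
  refine ⟨V, hV, hx, ?_⟩
  have h0 := RingHom.IsStandardSmoothOfRelativeDimension.comp hf
    (RingHom.IsStandardSmoothOfRelativeDimension.equiv
      ((Scheme.ΓSpecIso (CommRingCat.of K)).symm.commRingCatIsoToRingEquiv))
  exact h0

/-- The function field of an integral scheme, smooth of relative dimension `g` over a perfect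
field `K`, has transcendence degree `g` over `K`. -/
theorem trdeg_functionField [PerfectField K] [IsIntegral A] (g : ℕ)
    [SmoothOfRelativeDimension g f] :
    letI := (toFunctionField f).toAlgebra
    Algebra.trdeg K A.functionField = g := by
  letI := (toFunctionField f).toAlgebra
  obtain ⟨V, hV, hx, hsm⟩ := exists_toSection_isStandardSmooth f g (genericPoint A)
  haveI : Nonempty V := ⟨⟨_, hx⟩⟩
  letI : Algebra K Γ(A, V) := (toSection f V).toAlgebra
  haveI : IsScalarTower K Γ(A, V) A.functionField :=
    IsScalarTower.of_algebraMap_eq' (toFunctionField_eq f V)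
  haveI : IsFractionRing Γ(A, V) A.functionField :=
    functionField_isFractionRing_of_isAffineOpen A V hV
  haveI : Algebra.IsStandardSmoothOfRelativeDimension g K Γ(A, V) := hsm
  exact trdeg_of_isStandardSmoothOfRelativeDimension (K := K) (S := Γ(A, V))
    (L := A.functionField) g

/-- The function field of an integral smooth `K`-scheme is essentially of finite type over `K`
(i.e. a finitely generated field extension). -/
theorem essFiniteType_functionField [IsIntegral A] (g : ℕ) [SmoothOfRelativeDimension g f] :
    letI := (toFunctionField f).toAlgebra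
    Algebra.EssFiniteType K A.functionField := by
  letI := (toFunctionField f).toAlgebra
  obtain ⟨V, hV, hx, hsm⟩ := exists_toSection_isStandardSmooth f g (genericPoint A)
  haveI : Nonempty V := ⟨⟨_, hx⟩⟩
  letI : Algebra K Γ(A, V) := (toSection f V).toAlgebra
  haveI : IsScalarTower K Γ(A, V) A.functionField :=
    IsScalarTower.of_algebraMap_eq' (toFunctionField_eq f V)
  haveI : IsFractionRing Γ(A, V) A.functionField :=
    functionField_isFractionRing_of_isAffineOpen A V hV
  haveI : Algebra.IsStandardSmoothOfRelativeDimension g K Γ(A, V) := hsm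
  haveI : Algebra.IsStandardSmooth K Γ(A, V) :=
    Algebra.IsStandardSmoothOfRelativeDimension.isStandardSmooth g
  haveI : Algebra.EssFiniteType Γ(A, V) A.functionField :=
    Algebra.EssFiniteType.of_isLocalization A.functionField (nonZeroDivisors Γ(A, V))
  exact Algebra.EssFiniteType.comp K Γ(A, V) A.functionField

end geom

end Fermat.Agent.S26.Curves.H1185
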